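import Mathlib

/-!
# P-DS block (4b): elementary Rankin-type bounds (Mathlib only)

Let `a : ℕ → ℝ` be nonnegative with partial sums `∑_{n ≤ x} a n ≤ C x` (for a weight-1 cusp
form `f = ∑ a_n q^n` one takes `a n = |σ(a_n)|^2`; the partial-sum bound is the Hecke/Parseval
estimate).  Then

* `rankin_sum_le`: `∑_{n ≤ x} a n / n^s ≤ C (1 + 1/(s-1))` for `s > 1`;
* `rankin_summable`, `rankin_tsum_le`: the Dirichlet series converges and is `≤ C (1 + 1/(s-1))`;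
* `rankin_prod_le`: if `a` is multiplicative on squarefree integers prime to `N`, every finite
  Euler product `∏_{p ∈ F} (1 + a p / p^s)` is bounded by the Dirichlet series;
* `rankin_density`: `∑_{p ∈ F} p^{-s} ≤ log (C (1 + 1/(s-1))) / (2 log (1 + B/2))` for every
  finite set `F` of primes `p ∤ N` with `a p ≥ B`;
* `rankin_sharp`: if `a p ≤ B₀` for all `p ∈ F` then
  `∑_{p ∈ F} a p / p^s ≤ log (C (1 + 1/(s-1))) + B₀^2 / 2`.
-/

namespace Fermat.Agent.H95.DS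

open Finset

/-- Abel's inequality: nonnegative partial sums against an antitone nonnegative weight. -/
theorem abel_ineq (b w : ℕ → ℝ) (hB : ∀ x, 0 ≤ ∑ n ∈ range x, b n)
    (hw : Antitone w) (x : ℕ) :
    (∑ n ∈ range (x + 1), b n) * w x ≤ ∑ n ∈ range (x + 1), b n * w n := by
  induction x with
  | zero => simp
  | succ x ih =>
    rw [sum_range_succ (fun n => b n * w n), sum_range_succ b (x + 1), add_mul]
    have h1 : (∑ n ∈ range (x + 1), b n) * w (x + 1) ≤ (∑ n ∈ range (x + 1), b n) * w x :=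
      mul_le_mul_of_nonneg_left (hw (Nat.le_succ x)) (hB (x + 1))
    linarith

theorem abel_ineq_nonneg (b w : ℕ → ℝ) (hB : ∀ x, 0 ≤ ∑ n ∈ range x, b n)
    (hw : Antitone w) (hw0 : ∀ n, 0 ≤ w n) (x : ℕ) :
    0 ≤ ∑ n ∈ range x, b n * w n := by
  cases x with
  | zero => simp
  | succ x =>
    exact le_trans (mul_nonneg (hB (x + 1)) (hw0 x)) (abel_ineq b w hB hw x)

/-- Partial summation: `∑_{n < x} a (n+1) w n ≤ C ∑_{n < x} w n` when the partial sums of `a`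
are at most `C x`. -/
theorem sum_mul_le_of_partial (a w : ℕ → ℝ) (C : ℝ)
    (hA : ∀ x : ℕ, ∑ n ∈ range x, a (n + 1) ≤ C * x)
    (hw : Antitone w) (hw0 : ∀ n, 0 ≤ w n) (x : ℕ) :
    ∑ n ∈ range x, a (n + 1) * w n ≤ C * ∑ n ∈ range x, w n := by
  have h := abel_ineq_nonneg (fun n => C - a (n + 1)) w (fun x => by
    rw [sum_sub_distrib]
    simp only [sum_const, card_range, nsmul_eq_mul]
    have := hA x
    linarith) hw hw0 x
  have e : ∑ n ∈ range x, (C - a (n + 1)) * w n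
      = C * ∑ n ∈ range x, w n - ∑ n ∈ range x, a (n + 1) * w n := by
    rw [mul_sum, ← sum_sub_distrib]
    exact sum_congr rfl (fun n _ => by ring)
  rw [e] at h
  linarith

/-- `∑_{n=1}^{x} n^{-s} ≤ 1 + 1/(s-1)` for `s > 1`. -/
theorem sum_rpow_neg_le (s : ℝ) (hs : 1 < s) (x : ℕ) :
    ∑ n ∈ range x, ((n + 1 : ℕ) : ℝ) ^ (-s) ≤ 1 + 1 / (s - 1) := by
  cases x with
  | zero =>
    simp only [range_zero, sum_empty]
    have : 0 < 1 / (s - 1) := by
      apply div_pos one_pos; linarith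
    linarith
  | succ x =>
    rw [sum_range_succ']
    simp only [zero_add, Nat.cast_one, Real.one_rpow]
    have hanti : AntitoneOn (fun t : ℝ => t ^ (-s)) (Set.Icc ((1 : ℕ) : ℝ) ((1 + x : ℕ) : ℝ)) := by
      intro u hu v hv huv
      have hu0 : 0 < u := by
        have := hu.1; simp only [Nat.cast_one] at this; linarith
      exact Real.rpow_le_rpow_of_nonpos hu0 huv (by linarith)
    have h := AntitoneOn.sum_le_integral_Ico (a := 1) (b := 1 + x) (by omega) hanti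
    have hint : ∫ t in ((1 : ℕ) : ℝ)..((1 + x : ℕ) : ℝ), t ^ (-s)
        = (((1 + x : ℕ) : ℝ) ^ (-s + 1) - ((1 : ℕ) : ℝ) ^ (-s + 1)) / (-s + 1) := by
      apply integral_rpow
      right
      refine ⟨by linarith, ?_⟩
      rw [Set.uIcc_of_le (by exact_mod_cast (by omega : 1 ≤ 1 + x))]
      intro h0
      have := h0.1
      simp only [Nat.cast_one] at this
      linarith
    rw [hint] at h
    have hsum : ∑ n ∈ range x, ((n + 1 + 1 : ℕ) : ℝ) ^ (-s)
        = ∑ i ∈ Ico 1 (1 + x), ((i + 1 : ℕ) : ℝ) ^ (-s) := by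
      rw [Finset.sum_Ico_eq_sum_range]
      simp only [Nat.add_sub_cancel_left]
      refine sum_congr rfl (fun n _ => ?_)
      congr 2
      omega
    rw [hsum]
    have hbound : (((1 + x : ℕ) : ℝ) ^ (-s + 1) - ((1 : ℕ) : ℝ) ^ (-s + 1)) / (-s + 1)
        ≤ 1 / (s - 1) := by
      have h1 : (0 : ℝ) ≤ ((1 + x : ℕ) : ℝ) ^ (-s + 1) := by positivity
      simp only [Nat.cast_one, Real.one_rpow]
      have hpos : 0 < s - 1 := by linarith
      have e : (((1 + x : ℕ) : ℝ) ^ (-s + 1) - 1) / (-s + 1)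
          = (1 - ((1 + x : ℕ) : ℝ) ^ (-s + 1)) / (s - 1) := by
        rw [div_eq_div_iff (by linarith) (by linarith)]; ring
      rw [e]
      apply div_le_div_of_nonneg_right _ hpos.le
      linarith
    linarith

section rankin

variable (a : ℕ → ℝ) (C : ℝ)

/-- The weight `n ↦ (n+1)^{-s}` is antitone for `s ≥ 0`. -/
theorem antitone_rpow_neg (s : ℝ) (hs : 0 ≤ s) :
    Antitone (fun n : ℕ => ((n + 1 : ℕ) : ℝ) ^ (-s)) := by
  intro m n hmn
  have hm : (0 : ℝ) < ((m + 1 : ℕ) : ℝ) := by positivity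
  exact Real.rpow_le_rpow_of_nonpos hm (by exact_mod_cast Nat.succ_le_succ hmn) (by linarith)

theorem rankin_C_nonneg (ha : ∀ n, 0 ≤ a n)
    (hA : ∀ x : ℕ, ∑ n ∈ range x, a (n + 1) ≤ C * x) : 0 ≤ C := by
  have := hA 1
  simp only [range_one, sum_singleton, zero_add, Nat.cast_one, mul_one] at this
  exact le_trans (ha 1) this

/-- (R1) partial sums of the Dirichlet series. -/
theorem rankin_sum_le (ha : ∀ n, 0 ≤ a n)
    (hA : ∀ x : ℕ, ∑ n ∈ range x, a (n + 1) ≤ C * x) (s : ℝ) (hs : 1 < s) (x : ℕ) :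
    ∑ n ∈ range x, a (n + 1) * ((n + 1 : ℕ) : ℝ) ^ (-s) ≤ C * (1 + 1 / (s - 1)) := by
  have h1 := sum_mul_le_of_partial a (fun n : ℕ => ((n + 1 : ℕ) : ℝ) ^ (-s)) C hA
    (antitone_rpow_neg s (by linarith)) (fun n => by positivity) x
  exact le_trans h1 (mul_le_mul_of_nonneg_left (sum_rpow_neg_le s hs x) (rankin_C_nonneg a C ha hA))

/-- The term at `n = 0` of the Dirichlet series vanishes. -/
theorem rankin_term_zero (s : ℝ) (hs : 1 < s) : a 0 * ((0 : ℕ) : ℝ) ^ (-s) = 0 := by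
  rw [Nat.cast_zero, Real.zero_rpow (by linarith), mul_zero]

/-- (R1) the Dirichlet series `∑ a n n^{-s}` converges for `s > 1`. -/
theorem rankin_summable (ha : ∀ n, 0 ≤ a n)
    (hA : ∀ x : ℕ, ∑ n ∈ range x, a (n + 1) ≤ C * x) (s : ℝ) (hs : 1 < s) :
    Summable (fun n : ℕ => a n * (n : ℝ) ^ (-s)) := by
  rw [← summable_nat_add_iff 1]
  exact summable_of_sum_range_le (fun n => mul_nonneg (ha _) (by positivity))
    (rankin_sum_le a C ha hA s hs)

/-- (R1) the Dirichlet series is at most `C (1 + 1/(s-1))`. -/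
theorem rankin_tsum_le (ha : ∀ n, 0 ≤ a n)
    (hA : ∀ x : ℕ, ∑ n ∈ range x, a (n + 1) ≤ C * x) (s : ℝ) (hs : 1 < s) :
    ∑' n : ℕ, a n * (n : ℝ) ^ (-s) ≤ C * (1 + 1 / (s - 1)) := by
  rw [(rankin_summable a C ha hA s hs).tsum_eq_zero_add, rankin_term_zero a s hs, zero_add]
  exact Real.tsum_le_of_sum_range_le (fun n => mul_nonneg (ha _) (by positivity))
    (rankin_sum_le a C ha hA s hs)

/-- (R2) every finite Euler product is bounded by the Dirichlet series. -/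
theorem rankin_prod_le (ha : ∀ n, 0 ≤ a n)
    (hA : ∀ x : ℕ, ∑ n ∈ range x, a (n + 1) ≤ C * x) (N : ℕ)
    (hmul : ∀ n : ℕ, Squarefree n → n.Coprime N → a n = ∏ p ∈ n.primeFactors, a p)
    (s : ℝ) (hs : 1 < s) (F : Finset ℕ) (hF : ∀ p ∈ F, p.Prime ∧ ¬ p ∣ N) :
    ∏ p ∈ F, (1 + a p * (p : ℝ) ^ (-s)) ≤ ∑' n : ℕ, a n * (n : ℝ) ^ (-s) := by
  classical
  rw [Finset.prod_one_add]
  have hprime : ∀ t ∈ F.powerset, ∀ p ∈ t, p.Prime := fun t ht p hp =>
    (hF p (Finset.mem_powerset.mp ht hp)).1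
  have hterm : ∀ t ∈ F.powerset, ∏ p ∈ t, a p * (p : ℝ) ^ (-s)
      = a (∏ p ∈ t, p) * ((∏ p ∈ t, p : ℕ) : ℝ) ^ (-s) := by
    intro t ht
    have hpf : (∏ p ∈ t, p).primeFactors = t := Nat.primeFactors_prod (hprime t ht)
    have hsq : Squarefree (∏ p ∈ t, p) := by
      apply Finset.squarefree_prod_of_pairwise_isCoprime
      · intro p hp q hq hpq
        exact Nat.coprime_iff_isRelPrime.mp
          ((Nat.coprime_primes (hprime t ht p hp) (hprime t ht q hq)).mpr hpq)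
      · intro p hp
        exact (hprime t ht p hp).squarefree
    have hcop : (∏ p ∈ t, p).Coprime N := by
      apply Nat.Coprime.prod_left
      intro p hp
      exact (Nat.Prime.coprime_iff_not_dvd (hprime t ht p hp)).mpr
        (hF p (Finset.mem_powerset.mp ht hp)).2
    rw [Finset.prod_mul_distrib, hmul _ hsq hcop, hpf, Nat.cast_prod,
      Real.finsetProd_rpow _ _ (fun p _ => by positivity)]
  rw [Finset.sum_congr rfl hterm]
  have hinj : Set.InjOn (fun t : Finset ℕ => ∏ p ∈ t, p) (F.powerset : Set (Finset ℕ)) := by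
    intro t ht u hu htu
    have h1 : (∏ p ∈ t, p).primeFactors = t := Nat.primeFactors_prod (hprime t ht)
    have h2 : (∏ p ∈ u, p).primeFactors = u := Nat.primeFactors_prod (hprime u hu)
    simp only at htu
    rw [← h1, ← h2, htu]
  rw [← Finset.sum_image (f := fun n : ℕ => a n * (n : ℝ) ^ (-s)) hinj]
  exact (rankin_summable a C ha hA s hs).sum_le_tsum _
    (fun n _ => mul_nonneg (ha n) (by positivity))

/-- `p^{-s} ≤ 1/2` for a prime `p` and `s ≥ 1`. -/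
theorem prime_rpow_neg_le_half {p : ℕ} (hp : p.Prime) (s : ℝ) (hs : 1 ≤ s) :
    (p : ℝ) ^ (-s) ≤ 1 / 2 := by
  have h2 : (2 : ℝ) ≤ p := by exact_mod_cast hp.two_le
  have h1 : (p : ℝ) ^ (-s) ≤ (p : ℝ) ^ (-1 : ℝ) :=
    Real.rpow_le_rpow_of_exponent_le (by linarith) (by linarith)
  have h3 : (p : ℝ) ^ (-1 : ℝ) ≤ 1 / 2 := by
    rw [Real.rpow_neg_one, one_div]
    exact inv_anti₀ (by norm_num) h2
  exact le_trans h1 h3

/-- Concavity of `log`: `2 u log (1 + B/2) ≤ log (1 + B u)` for `0 ≤ u ≤ 1/2`. -/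
theorem log_one_add_ge (B u : ℝ) (hB : 0 ≤ B) (hu0 : 0 ≤ u) (hu : u ≤ 1 / 2) :
    2 * u * Real.log (1 + B / 2) ≤ Real.log (1 + B * u) := by
  have hconc := strictConcaveOn_log_Ioi.concaveOn
  have hy : (1 + B / 2) ∈ Set.Ioi (0 : ℝ) := by
    simp only [Set.mem_Ioi]; linarith
  have h := hconc.2 (show (1 : ℝ) ∈ Set.Ioi (0 : ℝ) by simp) hy
    (show (0 : ℝ) ≤ 1 - 2 * u by linarith) (show (0 : ℝ) ≤ 2 * u by linarith) (by ring)
  simp only [smul_eq_mul, Real.log_one, mul_zero, zero_add] at h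
  have e : (1 - 2 * u) * 1 + 2 * u * (1 + B / 2) = 1 + B * u := by ring
  rw [e] at h
  exact h

/-- (R3) density bound: primes `p ∤ N` with `a p ≥ B` are rare. -/
theorem rankin_density (ha : ∀ n, 0 ≤ a n)
    (hA : ∀ x : ℕ, ∑ n ∈ range x, a (n + 1) ≤ C * x) (N : ℕ)
    (hmul : ∀ n : ℕ, Squarefree n → n.Coprime N → a n = ∏ p ∈ n.primeFactors, a p)
    (s : ℝ) (hs : 1 < s) (B : ℝ) (hB : 0 ≤ B) (F : Finset ℕ)
    (hF : ∀ p ∈ F, p.Prime ∧ ¬ p ∣ N ∧ B ≤ a p) :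
    (∑ p ∈ F, (p : ℝ) ^ (-s)) * (2 * Real.log (1 + B / 2))
      ≤ Real.log (C * (1 + 1 / (s - 1))) := by
  have hpos : ∀ p ∈ F, 0 < 1 + a p * (p : ℝ) ^ (-s) := fun p _ => by
    have := mul_nonneg (ha p) (Real.rpow_nonneg (Nat.cast_nonneg p) (-s))
    linarith
  have hterm : ∀ p ∈ F, (p : ℝ) ^ (-s) * (2 * Real.log (1 + B / 2))
      ≤ Real.log (1 + a p * (p : ℝ) ^ (-s)) := by
    intro p hp
    obtain ⟨hpp, -, hBp⟩ := hF p hp
    have hu0 : 0 ≤ (p : ℝ) ^ (-s) := Real.rpow_nonneg (Nat.cast_nonneg p) (-s)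
    have h1 := log_one_add_ge B ((p : ℝ) ^ (-s)) hB hu0 (prime_rpow_neg_le_half hpp s hs.le)
    have h2 : Real.log (1 + B * (p : ℝ) ^ (-s)) ≤ Real.log (1 + a p * (p : ℝ) ^ (-s)) := by
      apply Real.log_le_log
      · have := mul_nonneg hB hu0
        linarith
      · have := mul_le_mul_of_nonneg_right hBp hu0
        linarith
    calc (p : ℝ) ^ (-s) * (2 * Real.log (1 + B / 2))
        = 2 * (p : ℝ) ^ (-s) * Real.log (1 + B / 2) := by ring
      _ ≤ _ := le_trans h1 h2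
  rw [Finset.sum_mul]
  refine le_trans (Finset.sum_le_sum hterm) ?_
  rw [← Real.log_prod (fun p hp => (hpos p hp).ne')]
  have hprod_pos : 0 < ∏ p ∈ F, (1 + a p * (p : ℝ) ^ (-s)) := Finset.prod_pos hpos
  apply Real.log_le_log hprod_pos
  exact le_trans (rankin_prod_le a C ha hA N hmul s hs F (fun p hp => ⟨(hF p hp).1, (hF p hp).2.1⟩))
    (rankin_tsum_le a C ha hA s hs)

/-- `∑_{p ∈ F} p^{-2} ≤ 1` for a finite set `F` of integers `≥ 2`. -/
theorem sum_inv_sq_le_one (F : Finset ℕ) (hF : ∀ p ∈ F, 2 ≤ p) :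
    ∑ p ∈ F, (p : ℝ) ^ (-2 : ℝ) ≤ 1 := by
  classical
  obtain ⟨X, hX⟩ : ∃ X : ℕ, ∀ p ∈ F, p < X + 2 := by
    refine ⟨F.sup id, fun p hp => ?_⟩
    have : p ≤ F.sup id := Finset.le_sup (f := id) hp
    omega
  have hsub : F ⊆ (range X).image (fun n => n + 2) := by
    intro p hp
    rw [Finset.mem_image]
    refine ⟨p - 2, Finset.mem_range.mpr ?_, ?_⟩
    · have := hX p hp; have := hF p hp; omega
    · have := hF p hp; omega
  have h1 : ∑ p ∈ F, (p : ℝ) ^ (-2 : ℝ) ≤ ∑ p ∈ (range X).image (fun n : ℕ => n + 2),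
      ((p : ℕ) : ℝ) ^ (-2 : ℝ) :=
    Finset.sum_le_sum_of_subset_of_nonneg hsub (fun p _ _ => by positivity)
  rw [Finset.sum_image (fun x _ y _ h => by simpa using h)] at h1
  have h2 := sum_rpow_neg_le 2 (by norm_num) (X + 1)
  rw [Finset.sum_range_succ'] at h2
  simp only [zero_add, Nat.cast_one, Real.one_rpow] at h2
  have h3 : ∑ n ∈ range X, ((n + 2 : ℕ) : ℝ) ^ (-2 : ℝ)
      = ∑ n ∈ range X, ((n + 1 + 1 : ℕ) : ℝ) ^ (-2 : ℝ) := rfl
  rw [h3] at h1
  have e : (1 : ℝ) + 1 / (2 - 1) = 2 := by norm_num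
  rw [e] at h2
  linarith

/-- (R3') sharp form: if `a p ≤ B₀` on `F` then
`∑_{p ∈ F} a p p^{-s} ≤ log (C (1 + 1/(s-1))) + B₀^2/2`. -/
theorem rankin_sharp (ha : ∀ n, 0 ≤ a n)
    (hA : ∀ x : ℕ, ∑ n ∈ range x, a (n + 1) ≤ C * x) (N : ℕ)
    (hmul : ∀ n : ℕ, Squarefree n → n.Coprime N → a n = ∏ p ∈ n.primeFactors, a p)
    (s : ℝ) (hs : 1 < s) (B₀ : ℝ) (F : Finset ℕ)
    (hF : ∀ p ∈ F, p.Prime ∧ ¬ p ∣ N ∧ a p ≤ B₀) :
    ∑ p ∈ F, a p * (p : ℝ) ^ (-s) ≤ Real.log (C * (1 + 1 / (s - 1))) + B₀ ^ 2 / 2 := by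
  have hpos : ∀ p ∈ F, 0 < 1 + a p * (p : ℝ) ^ (-s) := fun p _ => by
    have := mul_nonneg (ha p) (Real.rpow_nonneg (Nat.cast_nonneg p) (-s))
    linarith
  have hterm : ∀ p ∈ F, a p * (p : ℝ) ^ (-s)
      ≤ Real.log (1 + a p * (p : ℝ) ^ (-s)) + B₀ ^ 2 / 2 * (p : ℝ) ^ (-2 : ℝ) := by
    intro p hp
    obtain ⟨hpp, -, hBp⟩ := hF p hp
    have hp0 : (0 : ℝ) < p := by exact_mod_cast hpp.pos
    have hu0 : 0 ≤ (p : ℝ) ^ (-s) := Real.rpow_nonneg (Nat.cast_nonneg p) (-s)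
    set x := a p * (p : ℝ) ^ (-s) with hx
    have hx0 : 0 ≤ x := mul_nonneg (ha p) hu0
    have h1 := Real.le_log_one_add_of_nonneg hx0
    have h2 : x - x ^ 2 / 2 ≤ 2 * x / (x + 2) := by
      rw [le_div_iff₀ (by linarith)]
      nlinarith [mul_nonneg hx0 (mul_nonneg hx0 hx0)]
    have hu2 : ((p : ℝ) ^ (-s)) ^ 2 ≤ (p : ℝ) ^ (-2 : ℝ) := by
      rw [← Real.rpow_natCast, ← Real.rpow_mul hp0.le]
      apply Real.rpow_le_rpow_of_exponent_le
      · exact_mod_cast hpp.one_lt.le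
      · push_cast; linarith
    have h3 : x ^ 2 ≤ B₀ ^ 2 * (p : ℝ) ^ (-2 : ℝ) := by
      rw [hx, mul_pow]
      have hB0 : 0 ≤ B₀ := le_trans (ha p) hBp
      have : a p ^ 2 ≤ B₀ ^ 2 := pow_le_pow_left₀ (ha p) hBp 2
      exact mul_le_mul this hu2 (by positivity) (by positivity)
    linarith
  refine le_trans (Finset.sum_le_sum hterm) ?_
  rw [Finset.sum_add_distrib, ← Finset.mul_sum, ← Real.log_prod (fun p hp => (hpos p hp).ne')]
  have hprod_pos : 0 < ∏ p ∈ F, (1 + a p * (p : ℝ) ^ (-s)) := Finset.prod_pos hpos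
  have hlog : Real.log (∏ p ∈ F, (1 + a p * (p : ℝ) ^ (-s)))
      ≤ Real.log (C * (1 + 1 / (s - 1))) := by
    apply Real.log_le_log hprod_pos
    exact le_trans
      (rankin_prod_le a C ha hA N hmul s hs F (fun p hp => ⟨(hF p hp).1, (hF p hp).2.1⟩))
      (rankin_tsum_le a C ha hA s hs)
  have hsq := sum_inv_sq_le_one F (fun p hp => (hF p hp).1.two_le)
  have : B₀ ^ 2 / 2 * ∑ p ∈ F, (p : ℝ) ^ (-2 : ℝ) ≤ B₀ ^ 2 / 2 :=
    mul_le_of_le_one_right (by positivity) hsq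
  linarith

/-- Adapter: the partial-sum hypothesis in `Finset.Icc 1 x` form. -/
theorem rankin_hyp_of_Icc (hA : ∀ x : ℕ, ∑ n ∈ Icc 1 x, a n ≤ C * x) :
    ∀ x : ℕ, ∑ n ∈ range x, a (n + 1) ≤ C * x := by
  intro x
  have h := hA x
  have e : ∑ n ∈ Icc 1 x, a n = ∑ n ∈ range x, a (n + 1) := by
    rw [← Finset.Ico_add_one_right_eq_Icc, Finset.sum_Ico_eq_sum_range]
    simp only [Nat.add_sub_cancel]
    exact Finset.sum_congr rfl (fun n _ => by rw [add_comm])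
  rw [e] at h
  exact h

/-- `a 1 = 1` follows from multiplicativity, hence `1 ≤ C`. -/
theorem rankin_one_le_C
    (hA : ∀ x : ℕ, ∑ n ∈ range x, a (n + 1) ≤ C * x) (N : ℕ)
    (hmul : ∀ n : ℕ, Squarefree n → n.Coprime N → a n = ∏ p ∈ n.primeFactors, a p) :
    1 ≤ C := by
  have h1 : a 1 = 1 := by
    rw [hmul 1 squarefree_one (Nat.coprime_one_left N)]
    simp
  have := hA 1
  simp only [range_one, sum_singleton, zero_add, Nat.cast_one, mul_one] at this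
  linarith

/-- `log (C (1 + 1/(s-1))) ≤ log (1/(s-1)) + log (2 C)` for `1 < s ≤ 2`, `C > 0`. -/
theorem log_bound_le (hC : 0 < C) (s : ℝ) (hs : 1 < s) (hs2 : s ≤ 2) :
    Real.log (C * (1 + 1 / (s - 1))) ≤ Real.log (1 / (s - 1)) + Real.log (2 * C) := by
  have hpos : 0 < s - 1 := by linarith
  have h1 : 0 < 1 / (s - 1) := by positivity
  rw [← Real.log_mul h1.ne' (by positivity)]
  apply Real.log_le_log (by positivity)
  have e : 1 + 1 / (s - 1) = s * (1 / (s - 1)) := by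
    field_simp; ring
  rw [e]
  have : C * (s * (1 / (s - 1))) ≤ C * (2 * (1 / (s - 1))) :=
    mul_le_mul_of_nonneg_left (mul_le_mul_of_nonneg_right hs2 h1.le) hC.le
  calc C * (s * (1 / (s - 1))) ≤ C * (2 * (1 / (s - 1))) := this
    _ = 1 / (s - 1) * (2 * C) := by ring

/-- A neutral formulation of "upper Dirichlet density of the set `S` of primes is `≤ η`". -/
def UpperDensityLE (S : Set ℕ) (η : ℝ) : Prop :=
  ∀ ε : ℝ, 0 < ε → ∃ δ : ℝ, 0 < δ ∧ ∀ s : ℝ, 1 < s → s < 1 + δ →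
    ∀ F : Finset ℕ, (∀ p ∈ F, p.Prime ∧ p ∈ S) →
      ∑ p ∈ F, (p : ℝ) ^ (-s) ≤ (η + ε) * Real.log (1 / (s - 1))

/-- (R3), density form: the primes `p ∤ N` with `a p ≥ B` have upper Dirichlet density at most
`1 / (2 log (1 + B/2))`. -/
theorem rankin_upperDensity (ha : ∀ n, 0 ≤ a n)
    (hA : ∀ x : ℕ, ∑ n ∈ range x, a (n + 1) ≤ C * x) (N : ℕ)
    (hmul : ∀ n : ℕ, Squarefree n → n.Coprime N → a n = ∏ p ∈ n.primeFactors, a p)
    (B : ℝ) (hB : 0 < B) :
    UpperDensityLE {p : ℕ | ¬ p ∣ N ∧ B ≤ a p} (1 / (2 * Real.log (1 + B / 2))) := by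
  have hC1 := rankin_one_le_C a C hA N hmul
  have hC : 0 < C := by linarith
  obtain ⟨L, hLdef⟩ : ∃ L : ℝ, L = 2 * Real.log (1 + B / 2) := ⟨_, rfl⟩
  have hL : 0 < L := by
    have : 0 < Real.log (1 + B / 2) := Real.log_pos (by linarith)
    rw [hLdef]; linarith
  have hdens : ∀ s : ℝ, 1 < s → ∀ F : Finset ℕ,
      (∀ p ∈ F, p.Prime ∧ p ∈ {p : ℕ | ¬ p ∣ N ∧ B ≤ a p}) →
      (∑ p ∈ F, (p : ℝ) ^ (-s)) * L ≤ Real.log (C * (1 + 1 / (s - 1))) := by
    intro s hs F hF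
    rw [hLdef]
    exact rankin_density a C ha hA N hmul s hs B hB.le F
      (fun p hp => ⟨(hF p hp).1, (hF p hp).2.1, (hF p hp).2.2⟩)
  rw [← hLdef]
  clear hLdef
  intro ε hε
  have hK : 0 ≤ Real.log (2 * C) := Real.log_nonneg (by linarith)
  obtain ⟨T, hT⟩ : ∃ T : ℝ, T = Real.log (2 * C) / (ε * L) := ⟨_, rfl⟩
  have hT0 : 0 ≤ T := by rw [hT]; exact div_nonneg hK (by positivity)
  refine ⟨min 1 (Real.exp (-T)), lt_min one_pos (Real.exp_pos _), ?_⟩
  intro s hs hsδ F hF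
  have hs2 : s ≤ 2 := by
    have := lt_of_lt_of_le hsδ (add_le_add_right (min_le_left _ _) 1)
    linarith
  have hsT : s - 1 < Real.exp (-T) := by
    have := lt_of_lt_of_le hsδ (add_le_add_right (min_le_right _ _) 1)
    linarith
  have hpos : 0 < s - 1 := by linarith
  have hlogT : T ≤ Real.log (1 / (s - 1)) := by
    rw [one_div, Real.log_inv]
    have : Real.log (s - 1) < -T := by
      rw [Real.log_lt_iff_lt_exp hpos]
      exact hsT
    linarith
  have hmain := hdens s hs F hF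
  have hlog := log_bound_le C hC s hs hs2
  have h2 : Real.log (2 * C) ≤ ε * L * Real.log (1 / (s - 1)) := by
    have h3 : Real.log (2 * C) = T * (ε * L) := by
      rw [hT]; field_simp
    rw [h3]
    have := mul_le_mul_of_nonneg_right hlogT (by positivity : 0 ≤ ε * L)
    linarith
  have h4 : (∑ p ∈ F, (p : ℝ) ^ (-s)) * L
      ≤ (1 / L + ε) * Real.log (1 / (s - 1)) * L := by
    have e : (1 / L + ε) * Real.log (1 / (s - 1)) * L
        = Real.log (1 / (s - 1)) + ε * L * Real.log (1 / (s - 1)) := by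
      field_simp
    rw [e]
    linarith
  exact le_of_mul_le_mul_right h4 hL

end rankin

end Fermat.Agent.H95.DS
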