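import Fermat.Agent.H95.DS.Rankin

/-!
# P-DS block (4)/(5a): the finite set of values `Y_η`

* calculus of `UpperDensityLE` (monotone, finite unions);
* `rankin_family_density`: for finitely many sequences `a i` satisfying the Rankin hypotheses,
  the primes `p ∤ N` with `a i p ≥ B` for some `i` have upper density `≤ card ι / (2 log (1+B/2))`;
* `rankin_exists_finite_values`: for a sequence `x : ℕ → 𝓞 K` (`K` a number field), multiplicative
  on squarefree integers prime to `N`, all of whose conjugates have partial sums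
  `∑_{n ≤ X} |σ (x n)|^2 = O(X)`: for every `η > 0` there is a FINITE set `Y ⊆ 𝓞 K` such that
  `{p ∤ N : x p ∉ Y}` has upper Dirichlet density `≤ η`  (Deligne-Serre, Prop. 5.5 / §8.6).
-/

namespace Fermat.Agent.H95.DS

open Finset

theorem UpperDensityLE.mono_set {S T : Set ℕ} {η : ℝ} (h : UpperDensityLE T η) (hST : S ⊆ T) :
    UpperDensityLE S η := by
  intro ε hε
  obtain ⟨δ, hδ, H⟩ := h ε hε
  exact ⟨δ, hδ, fun s hs hsδ F hF => H s hs hsδ F (fun p hp => ⟨(hF p hp).1, hST (hF p hp).2⟩)⟩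

theorem log_inv_nonneg_of_lt {s : ℝ} (hs : 1 < s) (hs2 : s < 1 + 1) :
    0 ≤ Real.log (1 / (s - 1)) := by
  apply Real.log_nonneg
  rw [le_div_iff₀ (by linarith)]
  linarith

theorem UpperDensityLE.mono {S : Set ℕ} {η η' : ℝ} (h : UpperDensityLE S η) (hη : η ≤ η') :
    UpperDensityLE S η' := by
  intro ε hε
  obtain ⟨δ, hδ, H⟩ := h ε hε
  refine ⟨min δ 1, lt_min hδ one_pos, fun s hs hsδ F hF => ?_⟩
  have h1 : s < 1 + δ := lt_of_lt_of_le hsδ (add_le_add_right (min_le_left _ _) 1)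
  have h2 : s < 1 + 1 := lt_of_lt_of_le hsδ (add_le_add_right (min_le_right _ _) 1)
  refine le_trans (H s hs h1 F hF) ?_
  exact mul_le_mul_of_nonneg_right (by linarith) (log_inv_nonneg_of_lt hs h2)

theorem UpperDensityLE.empty : UpperDensityLE (∅ : Set ℕ) 0 := by
  intro ε hε
  refine ⟨1, one_pos, fun s hs hsδ F hF => ?_⟩
  have hF' : F = ∅ := by
    apply Finset.eq_empty_of_forall_notMem
    intro p hp
    exact (hF p hp).2
  rw [hF', Finset.sum_empty]
  exact mul_nonneg (by linarith) (log_inv_nonneg_of_lt hs hsδ)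

theorem UpperDensityLE.union {S T : Set ℕ} {η₁ η₂ : ℝ} (h₁ : UpperDensityLE S η₁)
    (h₂ : UpperDensityLE T η₂) : UpperDensityLE (S ∪ T) (η₁ + η₂) := by
  classical
  intro ε hε
  obtain ⟨δ₁, hδ₁, H₁⟩ := h₁ (ε / 2) (by linarith)
  obtain ⟨δ₂, hδ₂, H₂⟩ := h₂ (ε / 2) (by linarith)
  refine ⟨min δ₁ δ₂, lt_min hδ₁ hδ₂, fun s hs hsδ F hF => ?_⟩
  have hs1 : s < 1 + δ₁ := lt_of_lt_of_le hsδ (add_le_add_right (min_le_left _ _) 1)
  have hs2 : s < 1 + δ₂ := lt_of_lt_of_le hsδ (add_le_add_right (min_le_right _ _) 1)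
  have e := Finset.sum_filter_add_sum_filter_not F (fun p => p ∈ S) (fun p => (p : ℝ) ^ (-s))
  have b₁ := H₁ s hs hs1 (F.filter (fun p => p ∈ S)) (fun p hp => by
    rw [Finset.mem_filter] at hp
    exact ⟨(hF p hp.1).1, hp.2⟩)
  have b₂ := H₂ s hs hs2 (F.filter (fun p => ¬ p ∈ S)) (fun p hp => by
    rw [Finset.mem_filter] at hp
    refine ⟨(hF p hp.1).1, ?_⟩
    rcases (hF p hp.1).2 with h | h
    · exact absurd h hp.2
    · exact h)
  rw [← e]
  calc _ ≤ (η₁ + ε / 2) * Real.log (1 / (s - 1)) + (η₂ + ε / 2) * Real.log (1 / (s - 1)) :=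
        add_le_add b₁ b₂
    _ = (η₁ + η₂ + ε) * Real.log (1 / (s - 1)) := by ring

theorem UpperDensityLE.biUnion {ι : Type*} (I : Finset ι) (S : ι → Set ℕ) (η : ι → ℝ)
    (h : ∀ i ∈ I, UpperDensityLE (S i) (η i)) :
    UpperDensityLE (⋃ i ∈ I, S i) (∑ i ∈ I, η i) := by
  classical
  induction I using Finset.induction_on with
  | empty =>
    simp only [Finset.notMem_empty, Set.iUnion_of_empty, Set.iUnion_empty, Finset.sum_empty]
    exact UpperDensityLE.empty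
  | insert i I hi ih =>
    rw [Finset.sum_insert hi, Finset.set_biUnion_insert]
    exact UpperDensityLE.union (h i (Finset.mem_insert_self i I))
      (ih (fun j hj => h j (Finset.mem_insert_of_mem hj)))

/-- Finitely many sequences at once. -/
theorem rankin_family_density {ι : Type*} [Fintype ι] (a : ι → ℕ → ℝ) (C : ι → ℝ)
    (ha : ∀ i n, 0 ≤ a i n)
    (hA : ∀ i, ∀ x : ℕ, ∑ n ∈ range x, a i (n + 1) ≤ C i * x) (N : ℕ)
    (hmul : ∀ i, ∀ n : ℕ, Squarefree n → n.Coprime N → a i n = ∏ p ∈ n.primeFactors, a i p)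
    (B : ℝ) (hB : 0 < B) :
    UpperDensityLE {p : ℕ | ¬ p ∣ N ∧ ∃ i, B ≤ a i p}
      (Fintype.card ι / (2 * Real.log (1 + B / 2))) := by
  have h := UpperDensityLE.biUnion (Finset.univ : Finset ι)
    (fun i => {p : ℕ | ¬ p ∣ N ∧ B ≤ a i p}) (fun _ => 1 / (2 * Real.log (1 + B / 2)))
    (fun i _ => rankin_upperDensity (a i) (C i) (ha i) (hA i) N (hmul i) B hB)
  have e : ∑ _i ∈ (Finset.univ : Finset ι), 1 / (2 * Real.log (1 + B / 2))
      = Fintype.card ι / (2 * Real.log (1 + B / 2)) := by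
    rw [Finset.sum_const, Finset.card_univ, nsmul_eq_mul]; ring
  rw [e] at h
  refine h.mono_set ?_
  intro p hp
  obtain ⟨hpN, i, hi⟩ := hp
  simp only [Set.mem_iUnion, Finset.mem_univ, exists_true_left]
  exact ⟨i, hpN, hi⟩

/-- For every `η > 0` there is a threshold `B`. -/
theorem exists_threshold (d : ℕ) (η : ℝ) (hη : 0 < η) :
    ∃ B : ℝ, 0 < B ∧ (d : ℝ) / (2 * Real.log (1 + B / 2)) ≤ η := by
  refine ⟨2 * Real.exp ((d + 1) / (2 * η)), by positivity, ?_⟩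
  have hx : 0 < ((d : ℝ) + 1) / (2 * η) := by positivity
  have hlog : ((d : ℝ) + 1) / (2 * η) ≤ Real.log (1 + 2 * Real.exp ((d + 1) / (2 * η)) / 2) := by
    rw [Real.le_log_iff_exp_le (by positivity)]
    have := Real.exp_pos (((d : ℝ) + 1) / (2 * η))
    linarith
  have hpos : 0 < Real.log (1 + 2 * Real.exp ((d + 1) / (2 * η)) / 2) := lt_of_lt_of_le hx hlog
  rw [div_le_iff₀ (by positivity)]
  have h1 : (d : ℝ) + 1 ≤ 2 * η * Real.log (1 + 2 * Real.exp ((d + 1) / (2 * η)) / 2) := by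
    have := mul_le_mul_of_nonneg_left hlog (by positivity : (0 : ℝ) ≤ 2 * η)
    have e : 2 * η * (((d : ℝ) + 1) / (2 * η)) = d + 1 := by field_simp
    linarith
  linarith

theorem rankin_family_exists {ι : Type*} [Fintype ι] (a : ι → ℕ → ℝ) (C : ι → ℝ)
    (ha : ∀ i n, 0 ≤ a i n)
    (hA : ∀ i, ∀ x : ℕ, ∑ n ∈ range x, a i (n + 1) ≤ C i * x) (N : ℕ)
    (hmul : ∀ i, ∀ n : ℕ, Squarefree n → n.Coprime N → a i n = ∏ p ∈ n.primeFactors, a i p)
    (η : ℝ) (hη : 0 < η) :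
    ∃ B : ℝ, 0 < B ∧ UpperDensityLE {p : ℕ | ¬ p ∣ N ∧ ∃ i, B ≤ a i p} η := by
  obtain ⟨B, hB, hBη⟩ := exists_threshold (Fintype.card ι) η hη
  exact ⟨B, hB, (rankin_family_density a C ha hA N hmul B hB).mono hBη⟩

open NumberField in
/-- **The finite set of values.**  `K` a number field, `x : ℕ → 𝓞 K` multiplicative on
squarefree integers prime to `N`, every conjugate with partial sums of squares `O(X)`.
Then for every `η > 0` there is a finite `Y ⊆ 𝓞 K` with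
`{p ∤ N : x p ∉ Y}` of upper Dirichlet density `≤ η`. -/
theorem rankin_exists_finite_values (K : Type*) [Field K] [NumberField K] (x : ℕ → 𝓞 K)
    (N : ℕ)
    (hA : ∀ σ : K →+* ℂ, ∃ C : ℝ, ∀ X : ℕ,
      ∑ n ∈ range X, ‖σ (x (n + 1) : K)‖ ^ 2 ≤ C * X)
    (hmul : ∀ n : ℕ, Squarefree n → n.Coprime N → x n = ∏ p ∈ n.primeFactors, x p)
    (η : ℝ) (hη : 0 < η) :
    ∃ Y : Finset (𝓞 K), UpperDensityLE {p : ℕ | ¬ p ∣ N ∧ x p ∉ Y} η := by
  classical
  choose C hC using hA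
  obtain ⟨B, hB, hdens⟩ := rankin_family_exists (ι := K →+* ℂ)
    (fun σ n => ‖σ (x n : K)‖ ^ 2) C (fun σ n => by positivity) hC N
    (fun σ n hn hcop => by
      have h1 : (x n : K) = ∏ p ∈ n.primeFactors, (x p : K) := by
        conv_lhs => rw [hmul n hn hcop]
        exact map_prod (algebraMap (𝓞 K) K) _ _
      show ‖σ (x n : K)‖ ^ 2 = ∏ p ∈ n.primeFactors, ‖σ (x p : K)‖ ^ 2
      rw [h1, map_prod, norm_prod, Finset.prod_pow]) η hη
  have hfin := NumberField.Embeddings.finite_of_norm_le K ℂ (Real.sqrt B)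
  have hfin' : {y : 𝓞 K | ∀ σ : K →+* ℂ, ‖σ (y : K)‖ ≤ Real.sqrt B}.Finite := by
    refine Set.Finite.of_finite_image (f := fun y : 𝓞 K => (y : K)) (hfin.subset ?_)
      (fun y _ z _ h => RingOfIntegers.ext h)
    rintro _ ⟨y, hy, rfl⟩
    exact ⟨y.isIntegral_coe, hy⟩
  refine ⟨hfin'.toFinset, hdens.mono_set ?_⟩
  intro p hp
  obtain ⟨hpN, hpY⟩ := hp
  refine ⟨hpN, ?_⟩
  have hpY' : ¬ ∀ σ : K →+* ℂ, ‖σ (x p : K)‖ ≤ Real.sqrt B :=
    fun h => hpY (hfin'.mem_toFinset.mpr h)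
  obtain ⟨σ, hσ'⟩ := not_forall.mp hpY'
  have hσ : Real.sqrt B < ‖σ (x p : K)‖ := not_le.mp hσ'
  refine ⟨σ, ?_⟩
  have h0 : 0 ≤ Real.sqrt B := Real.sqrt_nonneg B
  have := pow_le_pow_left₀ h0 hσ.le 2
  rw [Real.sq_sqrt hB.le] at this
  exact this

end Fermat.Agent.H95.DS
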